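/-
S26 / block Q (architect helper138): DEFINITIONS.

`PB : PicBase K` is abstract.  `q_T(x) = x^* ξ`, `Theta` = third difference of `q`.
For a `K`-scheme `t : T ⟶ SpK K` the product `C × T` is `pullback c t`, with structure map
`cT c t = pullback.snd c t ≫ t`, the tautological point `ptC c t ∈ C(C × T)` and, for `y ∈ A(T)`,
the point `ptT c t y ∈ A(C × T)`.  `Xi` is the class `Theta(γ ∘ pr_C, y, z)` on `C × T`.
`A × A` is `pullback f f`, with structure map `aa f`, projections `pr1 f`, `pr2 f`, and the two axes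
`ax1 f e = (e, id)`, `ax2 f e = (id, e) : A ⟶ A × A`.
-/
import Fermat.Agent.S26.B.Defs
import Fermat.Prelude.Def_AlgebraicGeometry_RepresentsRelSubPic
import Fermat.Prelude.Def_AlgebraicGeometry_RelPicardAlgEquivZeroCut

set_option autoImplicit false

universe u

open CategoryTheory CategoryTheory.Limits AlgebraicGeometry AlgebraicGeometry.RelPicard
  NeronModelInfra GoodReductionJacobian

noncomputable section

namespace Fermat.Agent.S26.Q

variable {K : Type u} [Field K]

/-- `pb f L = f^* L`. -/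
abbrev pb {X Y : Scheme.{u}} (f : X ⟶ Y) (L : Y.Modules) : X.Modules :=
  (Scheme.Modules.pullback f).obj L

/-- the structure sheaf as a module -/
abbrev OO (X : Scheme.{u}) : X.Modules := SheafOfModules.unit X.ringCatSheaf

section Theta

variable (PB : PicBase K) {A : Scheme.{u}} {f : A ⟶ SpK K} (L : RelativeGroupLaw K f)

/-- the third difference of `x ↦ x^* ξ` -/
def Theta (ξ : PB.Pic A) {T : Scheme.{u}} (t : T ⟶ SpK K) (x y z : SchemeHomOver t f) : PB.Pic T :=
  PB.pull (L.mul t (L.mul t x y) z).1 ξ - PB.pull (L.mul t x y).1 ξ - PB.pull (L.mul t x z).1 ξ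
    - PB.pull (L.mul t y z).1 ξ + PB.pull x.1 ξ + PB.pull y.1 ξ + PB.pull z.1 ξ

end Theta

section Prod

variable {C : Scheme.{u}} (c : C ⟶ SpK K) {T : Scheme.{u}} (t : T ⟶ SpK K)

/-- the structure map of `C × T` -/
abbrev cT : pullback c t ⟶ SpK K := pullback.snd c t ≫ t

/-- the tautological point of `C` with values in `C × T` -/
def ptC : SchemeHomOver (cT c t) c := ⟨pullback.fst c t, pullback.condition⟩

/-- a `T`-point of `A` as a `C × T`-point -/
def ptT {A : Scheme.{u}} {f : A ⟶ SpK K} (y : SchemeHomOver t f) : SchemeHomOver (cT c t) f :=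
  schemeHomOverComp (pullback.snd c t) rfl y

/-- the graph `T ⟶ C × T` of a `T`-point of `C` -/
def graph (p : SchemeHomOver t c) : T ⟶ pullback c t :=
  pullback.lift p.1 (𝟙 T) (by rw [p.2, Category.id_comp])

variable (PB : PicBase K) {A : Scheme.{u}} {f : A ⟶ SpK K} (L : RelativeGroupLaw K f)

/-- the class `Theta(γ ∘ pr_C, y, z)` on `C × T` -/
def Xi (γ : SchemeHomOver c f) (ξ : PB.Pic A) (y z : SchemeHomOver t f) : PB.Pic (pullback c t) :=
  Theta PB L ξ (cT c t) (compPt K f (ptC c t) γ) (ptT c t y) (ptT c t z)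

end Prod

section AA

variable {A : Scheme.{u}} (f : A ⟶ SpK K)

/-- the structure map of `A × A = pullback f f` -/
abbrev aa : pullback f f ⟶ SpK K := pullback.fst f f ≫ f

/-- first projection -/
def pr1 : SchemeHomOver (aa f) f := ⟨pullback.fst f f, rfl⟩

/-- second projection -/
def pr2 : SchemeHomOver (aa f) f := ⟨pullback.snd f f, pullback.condition.symm⟩

/-- the pair of two points -/
def pair {T : Scheme.{u}} {t : T ⟶ SpK K} (y z : SchemeHomOver t f) : SchemeHomOver t (aa f) :=
  ⟨pullback.lift y.1 z.1 (by rw [y.2, z.2]), by rw [pullback.lift_fst_assoc, y.2]⟩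

/-- the constant point with value `e` -/
def cst {T : Scheme.{u}} (t : T ⟶ SpK K) (e : SchemeHomOver (𝟙 (SpK K)) f) : SchemeHomOver t f :=
  ⟨t ≫ e.1, by rw [Category.assoc, e.2, Category.comp_id]⟩

/-- `a ↦ (e, a)` -/
def ax1 (e : SchemeHomOver (𝟙 (SpK K)) f) : SchemeHomOver f (aa f) :=
  pair f (cst f f e) ⟨𝟙 A, Category.id_comp f⟩

/-- `a ↦ (a, e)` -/
def ax2 (e : SchemeHomOver (𝟙 (SpK K)) f) : SchemeHomOver f (aa f) :=
  pair f ⟨𝟙 A, Category.id_comp f⟩ (cst f f e)

end AA

end Fermat.Agent.S26.Q
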