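/-
S26 / block Q (architect helper138), node Q1: a rigidified line bundle on `C × T`, `T` geometrically
integral and locally of finite type over `K`, which is trivial on one fibre `C × τ`, is fibrewise
algebraically equivalent to zero.

PROOF (formal, only pull-back squares).  Let `k` be a field, `s : Spec k ⟶ T`.  Put
`a := fibreAt c t s : F ⟶ Spec k`, `F := pullback (pullback.snd c t) s`, `b := s ≫ t : Spec k ⟶ SpK K`,
`T' := pullback t b`, `h := pullback.snd t b : T' ⟶ Spec k` (locally of finite type and geometrically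
integral: instances, stability under base change).
`Φ : pullback a h ⟶ pullback c t :=
   pullback.lift (pullback.fst a h ≫ pullback.fst _ s ≫ pullback.fst c t) (pullback.snd a h ≫ pullback.fst t b) _`,
`M' := pb Φ M.L` (invertible: `M.isInvertible.pullback Φ`),
`t₁ := ⟨pullback.lift s (𝟙 _) _, _⟩`, `t₀ := ⟨pullback.lift (b ≫ τ.1) (𝟙 _) _, _⟩`.
* `baseChangeSnd a t₁ ≫ Φ = pullback.fst a (𝟙 _) ≫ pullback.fst (pullback.snd c t) s` (`pullback.hom_ext`; for the second
  coordinate use `pullback.condition` twice), then `pb_square`.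
* `baseChangeSnd a t₀ ≫ Φ = Ψ ≫ baseChangeSnd c τ` with
  `Ψ : pullback a (𝟙 _) ⟶ pullback c (𝟙 (SpK K)) := pullback.lift (pullback.fst a (𝟙 _) ≫ pullback.fst _ s ≫ pullback.fst c t) (pullback.snd a (𝟙 _) ≫ b) _`,
  then `pb_trivial_of_factor` + `pb_comp`.
-/
import Fermat.Agent.S26.Q.Pb

set_option autoImplicit false

universe u

open CategoryTheory CategoryTheory.Limits AlgebraicGeometry AlgebraicGeometry.RelPicard
  NeronModelInfra GoodReductionJacobian

namespace Fermat.Agent.S26.Q

variable {K : Type u} [Field K]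

theorem fibrewiseAlgEquivZero_of_trivial_fibre {C : Scheme.{u}} {c : C ⟶ SpK K}
    {o : SchemeHomOver (𝟙 (SpK K)) c} {T : Scheme.{u}} {t : T ⟶ SpK K} [LocallyOfFiniteType t]
    [GeometricallyIntegral t] (M : RigidifiedLineBundle c o t) (τ : SchemeHomOver (𝟙 (SpK K)) t)
    (hτ : Nonempty (pb (baseChangeSnd c τ) M.L ≅ OO (pullback c (𝟙 (SpK K))))) :
    FibrewiseAlgEquivZero M := by
  intro k _ _ s
  -- notation
  let a := fibreAt c t s
  let b : Spec (CommRingCat.of k) ⟶ SpK K := s ≫ t
  let h : pullback t b ⟶ Spec (CommRingCat.of k) := pullback.snd t b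
  have hΦ : (pullback.fst a h ≫ pullback.fst (pullback.snd c t) s ≫ pullback.fst c t) ≫ c =
      (pullback.snd a h ≫ pullback.fst t b) ≫ t := by
    have e1 : pullback.fst (pullback.snd c t) s ≫ pullback.snd c t = a ≫ s := pullback.condition
    have e2 : pullback.fst a h ≫ a = pullback.snd a h ≫ h := pullback.condition
    have e3 : pullback.fst t b ≫ t = h ≫ b := pullback.condition
    calc (pullback.fst a h ≫ pullback.fst (pullback.snd c t) s ≫ pullback.fst c t) ≫ c
        = pullback.fst a h ≫ pullback.fst (pullback.snd c t) s ≫ (pullback.fst c t ≫ c) := by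
          simp only [Category.assoc]
      _ = pullback.fst a h ≫ (pullback.fst (pullback.snd c t) s ≫ pullback.snd c t) ≫ t := by
          rw [pullback.condition]; simp only [Category.assoc]
      _ = (pullback.fst a h ≫ a) ≫ s ≫ t := by rw [e1]; simp only [Category.assoc]
      _ = pullback.snd a h ≫ (h ≫ b) := by rw [e2]; simp only [Category.assoc]; rfl
      _ = (pullback.snd a h ≫ pullback.fst t b) ≫ t := by rw [← e3]; simp only [Category.assoc]
  let Φ : pullback a h ⟶ pullback c t :=
    pullback.lift (pullback.fst a h ≫ pullback.fst (pullback.snd c t) s ≫ pullback.fst c t)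
      (pullback.snd a h ≫ pullback.fst t b) hΦ
  let t₁ : SchemeHomOver (𝟙 (Spec (CommRingCat.of k))) h :=
    ⟨pullback.lift s (𝟙 _) (by rw [Category.id_comp]), by rw [pullback.lift_snd]⟩
  let t₀ : SchemeHomOver (𝟙 (Spec (CommRingCat.of k))) h :=
    ⟨pullback.lift (b ≫ τ.1) (𝟙 _) (by rw [Category.assoc, τ.2, Category.comp_id,
      Category.id_comp]), by rw [pullback.lift_snd]⟩
  -- the fibre at `t₁`
  have h₁ : baseChangeSnd a t₁ ≫ Φ =
      pullback.fst a (𝟙 _) ≫ pullback.fst (pullback.snd c t) s := by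
    apply pullback.hom_ext
    · simp only [Φ, baseChangeSnd, Category.assoc, pullback.lift_fst, pullback.lift_fst_assoc,
        Category.comp_id]
    · have e1 : pullback.fst (pullback.snd c t) s ≫ pullback.snd c t = a ≫ s := pullback.condition
      have e2 : pullback.fst a (𝟙 (Spec (CommRingCat.of k))) ≫ a =
          pullback.snd a (𝟙 _) ≫ 𝟙 _ := pullback.condition
      simp only [Φ, t₁, baseChangeSnd, Category.assoc, pullback.lift_snd, pullback.lift_snd_assoc,
        pullback.lift_fst, Category.comp_id]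
      rw [e1, ← Category.assoc, e2, Category.comp_id]
  -- the fibre at `t₀`
  have hΨ : (pullback.fst a (𝟙 _) ≫ pullback.fst (pullback.snd c t) s ≫ pullback.fst c t) ≫ c =
      (pullback.snd a (𝟙 _) ≫ b) ≫ 𝟙 (SpK K) := by
    have e1 : pullback.fst (pullback.snd c t) s ≫ pullback.snd c t = a ≫ s := pullback.condition
    have e2 : pullback.fst a (𝟙 (Spec (CommRingCat.of k))) ≫ a =
        pullback.snd a (𝟙 _) ≫ 𝟙 _ := pullback.condition
    calc (pullback.fst a (𝟙 _) ≫ pullback.fst (pullback.snd c t) s ≫ pullback.fst c t) ≫ c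
        = pullback.fst a (𝟙 _) ≫ pullback.fst (pullback.snd c t) s ≫ (pullback.fst c t ≫ c) := by
          simp only [Category.assoc]
      _ = pullback.fst a (𝟙 _) ≫ (pullback.fst (pullback.snd c t) s ≫ pullback.snd c t) ≫ t := by
          rw [pullback.condition]; simp only [Category.assoc]
      _ = (pullback.fst a (𝟙 _) ≫ a) ≫ s ≫ t := by rw [e1]; simp only [Category.assoc]
      _ = (pullback.snd a (𝟙 _) ≫ b) ≫ 𝟙 (SpK K) := by
          rw [e2]; simp only [Category.assoc, Category.comp_id, Category.id_comp]; rfl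
  let Ψ : pullback a (𝟙 _) ⟶ pullback c (𝟙 (SpK K)) :=
    pullback.lift (pullback.fst a (𝟙 _) ≫ pullback.fst (pullback.snd c t) s ≫ pullback.fst c t)
      (pullback.snd a (𝟙 _) ≫ b) hΨ
  have h₀ : Ψ ≫ baseChangeSnd c τ = baseChangeSnd a t₀ ≫ Φ := by
    apply pullback.hom_ext
    · simp only [Φ, Ψ, baseChangeSnd, Category.assoc, pullback.lift_fst, pullback.lift_fst_assoc,
        Category.comp_id]
    · simp only [Φ, Ψ, t₀, baseChangeSnd, Category.assoc, pullback.lift_snd,
        pullback.lift_snd_assoc, pullback.lift_fst, Category.comp_id]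
  refine ⟨pullback t b, h, inferInstance, inferInstance, pb Φ M.L, M.isInvertible.pullback Φ,
    t₀, t₁, ?_, ?_⟩
  · exact iso_trans (pb_comp _ _ _) (pb_trivial_of_factor h₀ hτ)
  · exact pb_square h₁ M.L

end Fermat.Agent.S26.Q
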