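/-
S26 / block Q (architect helper138), node GI: `A × A` is geometrically integral over `K`.

PROOF.  `aa f = pullback.fst f f ≫ f`.  General lemma: `g : X ⟶ Y` geometrically integral, flat, universally open,
`f : Y ⟶ Spec K` geometrically integral and locally of finite type  ⟹  `g ≫ f` geometrically integral.
Indeed let `k` be a field, `y : Spec k ⟶ Spec K`, and `IsPullback fst snd (g ≫ f) y` with corner `Z`.
`Y_k := pullback f y` is integral (`GeometricallyIntegral.geometrically_isIntegral`, `IsPullback.of_hasPullback`) and locally noetherian
(locally of finite type over `Spec k`: `LocallyOfFiniteType.isLocallyNoetherian`), so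
`pullback g (pullback.fst f y)` is integral (Mathlib instance in `AlgebraicGeometry/Geometrically/Integral.lean`), and it is
isomorphic to `Z` (pasting: `IsPullback.paste_vert`/`paste_horiz`, `IsPullback.isoIsPullback`; `IsIntegral.of_isIso`/`isIntegral_of_isOpenImmersion`).
Here `g = pullback.fst f f` is a base change of `f`, which is flat and universally open because the base is a field
(instances used by Mathlib in `AlgebraicGeometry/Group/Abelian.lean`).
-/
import Fermat.Agent.S26.Q.Defs

set_option autoImplicit false

universe u

open CategoryTheory CategoryTheory.Limits AlgebraicGeometry AlgebraicGeometry.RelPicard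
  NeronModelInfra GoodReductionJacobian

namespace Fermat.Agent.S26.Q

variable {K : Type u} [Field K]

theorem geometricallyIntegral_comp {X Y : Scheme.{u}} (g : X ⟶ Y) (f : Y ⟶ SpK K)
    [GeometricallyIntegral g] [Flat g] [UniversallyOpen g] [GeometricallyIntegral f]
    [LocallyOfFiniteType f] : GeometricallyIntegral (g ≫ f) := by
  constructor
  intro k _ y Z fst snd hP
  have hYk : IsIntegral (pullback f y) :=
    GeometricallyIntegral.geometrically_isIntegral (f := f) y _ _ (IsPullback.of_hasPullback f y)
  have hlft : LocallyOfFiniteType (pullback.snd f y) := inferInstance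
  have hnoeth : IsLocallyNoetherian (pullback f y) :=
    LocallyOfFiniteType.isLocallyNoetherian (pullback.snd f y)
  have hint : IsIntegral (pullback g (pullback.fst f y)) := inferInstance
  have hpaste : IsPullback (pullback.fst g (pullback.fst f y))
      (pullback.snd g (pullback.fst f y) ≫ pullback.snd f y) (g ≫ f) y :=
    (IsPullback.of_hasPullback g (pullback.fst f y)).paste_vert (IsPullback.of_hasPullback f y)
  exact IsIntegral.of_isIso (hP.isoIsPullback _ _ hpaste).inv

theorem geometricallyIntegral_aa {A : Scheme.{u}} (f : A ⟶ SpK K) [LocallyOfFiniteType f]
    [GeometricallyIntegral f] : GeometricallyIntegral (aa f) := by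
  have : Flat f := inferInstance
  have : UniversallyOpen f := inferInstance
  exact geometricallyIntegral_comp (pullback.fst f f) f

theorem isIntegral_pullback_self {A : Scheme.{u}} (f : A ⟶ SpK K) [LocallyOfFiniteType f]
    [GeometricallyIntegral f] : IsIntegral (pullback f f) := by
  have := geometricallyIntegral_aa f
  exact GeometricallyIntegral.isIntegral_of_subsingleton (aa f)

end Fermat.Agent.S26.Q
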