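/-
S26 / block Q (architect helper138), node Q2: the RIGIDITY LEMMA.

`κ : Y × Z ⟶ J` over an algebraically closed field, `Z` proper and irreducible, `Y × Z` integral, `J` separated and
locally of finite type.  If `κ(y0, ·)` and `κ(·, z0)` are constant with value `j0` then `κ` is constant.

PROOF = adaptation of `AlgebraicGeometry.isCommMonObj_of_isProper_of_isIntegral_tensorObj_of_isAlgClosed`
(Mathlib/AlgebraicGeometry/Group/Abelian.lean), with `G ⊗ G` replaced by `P := pullback y z`,
`γ := pullback.lift (pullback.fst y z) κ _ : P ⟶ pullback y j`, `g := pullback.fst y j`  (`γ ≫ g = pullback.fst y z` is proper, `g` is separated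
and locally of finite type), `s := y0 point`.
1. `γ '' ((γ ≫ g) ⁻¹' {s}) ⊆ {(y0, j0) point}`: otherwise the locally closed set `fst ⁻¹' {s} \ γ ⁻¹' {pt}` contains a closed point
   (`nonempty_inter_closedPoints`, `JacobsonSpace P`), i.e. a `K`-point `q` (`pointEquivClosedPoint`); `q ≫ fst = y0`
   (`ext_of_apply_closedPoint_eq`), so `q = (q ≫ snd) ≫ lift (z ≫ y0) (𝟙 Z)` and `q ≫ κ = j0` by `h1`.
2. `exists_finite_imageι_comp_morphismRestrict_of_finite_image_preimage γ g s` gives an open `U ∋ s` of `Y` such that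
   `g ⁻¹' {x} ∩ range γ` is finite for all `x ∈ U` (copy the `have H (x : U)` block).
3. `ext_of_apply_eq j (fst ⁻¹ᵁ U)`: dense since `P` is irreducible and `(y0, z0) point` lies in it.  For a closed point `w` over `x = fst w ∈ U`
   (closed, `fst` is a closed map): `fst ⁻¹' {x}` is the image of the irreducible `Z` under `(x, id)`, its image under `γ` is finite,
   so `γ w = γ (x, z0)` (`subsingleton_image_closure_of_finite_of_isPreirreducible`), hence `κ w = κ (x, z0) = j0 point` by `h2`.
-/
import Fermat.Agent.S26.Q.Defs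

set_option autoImplicit false

universe u

open CategoryTheory CategoryTheory.Limits AlgebraicGeometry AlgebraicGeometry.RelPicard
  NeronModelInfra GoodReductionJacobian

namespace Fermat.Agent.S26.Q

variable {K : Type u} [Field K]

/-- the closed point of `Spec K` -/
private noncomputable abbrev pt (K : Type u) [Field K] : SpK K := IsLocalRing.closedPoint K

/-- Step 1: the fibre over `y0` is contracted by `γ`. -/
private theorem rig_step1 [IsAlgClosed K] {Y Z J : Scheme.{u}} (y : Y ⟶ SpK K) (z : Z ⟶ SpK K)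
    (j : J ⟶ SpK K) [LocallyOfFiniteType y] [IsProper z] [IsSeparated j] [LocallyOfFiniteType j]
    (κ : pullback y z ⟶ J) (hκ : κ ≫ j = pullback.fst y z ≫ y)
    (y0 : SpK K ⟶ Y) (hy0 : y0 ≫ y = 𝟙 _)
    (j0 : SpK K ⟶ J) (hj0 : j0 ≫ j = 𝟙 _)
    (h1 : pullback.lift (z ≫ y0) (𝟙 Z)
      (by rw [Category.assoc, hy0, Category.comp_id, Category.id_comp]) ≫ κ = z ≫ j0) :
    (pullback.lift (pullback.fst y z) κ hκ.symm : pullback y z ⟶ pullback y j) ''
      (pullback.fst y z ⁻¹' {y0 (pt K)}) ⊆
        {(pullback.lift y0 j0 (by rw [hy0, hj0]) : SpK K ⟶ pullback y j) (pt K)} := by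
  set γ : pullback y z ⟶ pullback y j := pullback.lift (pullback.fst y z) κ hκ.symm with hγ
  set pt0 : SpK K ⟶ pullback y j := pullback.lift y0 j0 (by rw [hy0, hj0]) with hpt0
  have hlft : LocallyOfFiniteType (pullback.fst y z ≫ y) := inferInstance
  have : JacobsonSpace ↥(pullback y z) :=
    LocallyOfFiniteType.jacobsonSpace (Y := Spec _) (pullback.fst y z ≫ y)
  have hy0c : IsClosed {y0 (pt K)} := (pointEquivClosedPoint y ⟨y0, hy0⟩).2
  have hpt0' : pt0 ≫ (pullback.fst y j ≫ y) = 𝟙 _ := by
    rw [hpt0, pullback.lift_fst_assoc, hy0]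
  have hpt0c : IsClosed {pt0 (pt K)} :=
    (pointEquivClosedPoint (pullback.fst y j ≫ y) ⟨pt0, hpt0'⟩).2
  rw [Set.image_subset_iff, ← Set.sdiff_eq_empty, ← Set.not_nonempty_iff_eq_empty]
  intro H
  obtain ⟨c₀, ⟨hc₁, hc₂⟩, hc₃⟩ := nonempty_inter_closedPoints H <| by
    rw [Set.sdiff_eq_compl_inter]
    refine (IsOpen.isLocallyClosed ?_).inter (IsClosed.isLocallyClosed ?_)
    · exact (hpt0c.preimage γ.continuous).isOpen_compl
    · exact hy0c.preimage (pullback.fst y z).continuous
  obtain ⟨⟨q, hq⟩, e⟩ := (pointEquivClosedPoint (pullback.fst y z ≫ y)).surjective ⟨c₀, hc₃⟩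
  obtain rfl : q (pt K) = c₀ := congr(($e).1)
  have hq1 : q ≫ pullback.fst y z = y0 :=
    ext_of_apply_closedPoint_eq y (by rw [Category.assoc]; exact hq) hy0 (by simpa using hc₁)
  have hq2z : (q ≫ pullback.snd y z) ≫ z = 𝟙 _ := by
    rw [Category.assoc, ← pullback.condition]; exact hq
  have hq2 : q = (q ≫ pullback.snd y z) ≫ pullback.lift (z ≫ y0) (𝟙 Z)
      (by rw [Category.assoc, hy0, Category.comp_id, Category.id_comp]) := by
    apply pullback.hom_ext
    · rw [Category.assoc, pullback.lift_fst, ← Category.assoc, hq2z, Category.id_comp, hq1]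
    · rw [Category.assoc, pullback.lift_snd, Category.comp_id]
  have hq3 : q ≫ κ = j0 := by
    rw [hq2, Category.assoc, h1, ← Category.assoc, hq2z, Category.id_comp]
  have hq4 : q ≫ γ = pt0 := by
    apply pullback.hom_ext
    · rw [Category.assoc, hγ, pullback.lift_fst, hq1, hpt0, pullback.lift_fst]
    · rw [Category.assoc, hγ, pullback.lift_snd, hq3, hpt0, pullback.lift_snd]
  apply hc₂
  rw [Set.mem_preimage, Set.mem_singleton_iff, ← hq4, Scheme.Hom.comp_apply]

set_option backward.defeqAttrib.useBackward true in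
set_option backward.isDefEq.respectTransparency false in
/-- Step 2: Zariski's main theorem. -/
private theorem rig_step2 {X Y' S' : Scheme.{u}} (γ : X ⟶ Y') (g : Y' ⟶ S') [IsProper (γ ≫ g)]
    [IsSeparated g] [LocallyOfFiniteType g] (s : S') (H : (γ '' ((γ ≫ g) ⁻¹' {s})).Finite) :
    ∃ U : S'.Opens, s ∈ U ∧ ∀ x ∈ U, (g ⁻¹' {x} ∩ Set.range γ).Finite := by
  obtain ⟨U, hηU, H⟩ :=
    exists_finite_imageι_comp_morphismRestrict_of_finite_image_preimage γ g s H
  have : IsProper γ := .of_comp γ g
  refine ⟨U, hηU, fun x hx => ?_⟩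
  refine ((((γ.imageι ≫ g) ∣_ U).finite_preimage_singleton ⟨x, hx⟩).image
      (Scheme.Opens.ι _ ≫ γ.imageι)).subset ?_
  have : U.ι ⁻¹' {x} = {⟨x, hx⟩} := by
    ext w
    simp only [Set.mem_preimage, Set.mem_singleton_iff]
    exact ⟨fun h => Subtype.ext h, fun h => congrArg Subtype.val h⟩
  rw [← this, ← Set.preimage_comp, ← TopCat.coe_comp, ← Scheme.Hom.comp_base,
      morphismRestrict_ι, ← Category.assoc, Scheme.Hom.comp_base (_ ≫ _) g,
      TopCat.coe_comp, Set.preimage_comp, Set.image_preimage_eq_inter_range]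
  simp only [Scheme.Hom.comp_base, TopCat.coe_comp, Set.range_comp, Scheme.Opens.range_ι]
  dsimp
  rw [Set.image_preimage_eq_inter_range, Scheme.IdealSheafData.range_subschemeι,
      Scheme.Hom.support_ker, ← Set.inter_assoc, ← Set.preimage_inter,
      Set.singleton_inter_of_mem hx, IsClosed.closure_eq
      (by exact γ.isClosedMap.isClosed_range)]

theorem rigidity [IsAlgClosed K] {Y Z J : Scheme.{u}} (y : Y ⟶ SpK K) (z : Z ⟶ SpK K)
    (j : J ⟶ SpK K) [LocallyOfFiniteType y] [IsProper z] [IsSeparated j] [LocallyOfFiniteType j]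
    [IsIntegral (pullback y z)] [IrreducibleSpace Z]
    (κ : pullback y z ⟶ J) (hκ : κ ≫ j = pullback.fst y z ≫ y)
    (y0 : SpK K ⟶ Y) (hy0 : y0 ≫ y = 𝟙 _) (z0 : SpK K ⟶ Z) (hz0 : z0 ≫ z = 𝟙 _)
    (j0 : SpK K ⟶ J) (hj0 : j0 ≫ j = 𝟙 _)
    (h1 : pullback.lift (z ≫ y0) (𝟙 Z)
      (by rw [Category.assoc, hy0, Category.comp_id, Category.id_comp]) ≫ κ = z ≫ j0)
    (h2 : pullback.lift (𝟙 Y) (y ≫ z0)
      (by rw [Category.assoc, hz0, Category.comp_id, Category.id_comp]) ≫ κ = y ≫ j0) :
    κ = (pullback.fst y z ≫ y) ≫ j0 := by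
  have H1 := rig_step1 y z j κ hκ y0 hy0 j0 hj0 h1
  set γ : pullback y z ⟶ pullback y j := pullback.lift (pullback.fst y z) κ hκ.symm with hγ
  have hγg : γ ≫ pullback.fst y j = pullback.fst y z := pullback.lift_fst _ _ _
  have hγs : γ ≫ pullback.snd y j = κ := pullback.lift_snd _ _ _
  have : IsProper (γ ≫ pullback.fst y j) := by rw [hγg]; infer_instance
  have : IsProper γ := .of_comp γ (pullback.fst y j)
  have hlft : LocallyOfFiniteType (pullback.fst y z ≫ y) := inferInstance
  have : JacobsonSpace ↥(pullback y z) :=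
    LocallyOfFiniteType.jacobsonSpace (Y := Spec _) (pullback.fst y z ≫ y)
  obtain ⟨U, hU0, HU⟩ := rig_step2 γ (pullback.fst y j) (y0 (pt K)) (by
    rw [hγg]
    exact (Set.finite_singleton _).subset H1)
  have : LocallyOfFiniteType (κ ≫ j) := by rw [hκ]; infer_instance
  refine ext_of_apply_eq j (pullback.fst y z ⁻¹ᵁ U)
    (pullback.fst y z ⁻¹ᵁ U).isOpen.isLocallyClosed
    ((pullback.fst y z ⁻¹ᵁ U).isOpen.dense ?_) ?_ ?_
  · refine ⟨(pullback.lift y0 z0 (by rw [hy0, hz0]) : SpK K ⟶ pullback y z) (pt K), ?_⟩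
    show pullback.fst y z _ ∈ U
    rw [← Scheme.Hom.comp_apply, pullback.lift_fst]
    exact hU0
  · intro w hwU hw
    have hx : IsClosed {pullback.fst y z w} := by
      simpa using (pullback.fst y z).isClosedMap _ hw
    have hxy : pointOfClosedPoint y _ hx ≫ y = 𝟙 _ := pointOfClosedPoint_comp y _ hx
    set x : SpK K ⟶ Y := pointOfClosedPoint y _ hx with hxdef
    set σ : Y ⟶ pullback y z := pullback.lift (𝟙 Y) (y ≫ z0)
      (by rw [Category.assoc, hz0, Category.comp_id, Category.id_comp]) with hσ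
    have hxe1 : pullback.fst y z (σ (pullback.fst y z w)) = pullback.fst y z w := by
      rw [← Scheme.Hom.comp_apply, hσ, pullback.lift_fst]
      rfl
    have key : γ w = γ (σ (pullback.fst y z w)) := by
      refine subsingleton_image_closure_of_finite_of_isPreirreducible
        (hx.preimage (pullback.fst y z).continuous).isLocallyClosed ?_ γ.continuous
        γ.isClosedMap ((HU _ hwU).subset ?_) ⟨w, subset_closure rfl, rfl⟩
        ⟨σ (pullback.fst y z w), subset_closure hxe1, rfl⟩
      · let α : pullback y z ⟶ pullback y z := pullback.map y z y z (y ≫ x) (𝟙 Z) (𝟙 _)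
          (by rw [Category.comp_id, Category.assoc, hxy, Category.comp_id])
          (by rw [Category.comp_id, Category.id_comp])
        have hirr := ((IrreducibleSpace.isIrreducible_univ ↥(pullback y z)).image α
          α.continuous.continuousOn).isPreirreducible
        rw [Set.image_univ, Scheme.Pullback.range_map] at hirr
        have hr : Set.range (y ≫ x) = {pullback.fst y z w} := by
          apply Set.eq_singleton_iff_unique_mem.mpr
          refine ⟨⟨pullback.fst y z w, ?_⟩, ?_⟩
          · rw [Scheme.Hom.comp_apply, hxdef, pointOfClosedPoint_apply]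
          · rintro _ ⟨v, rfl⟩
            rw [Scheme.Hom.comp_apply, hxdef, pointOfClosedPoint_apply]
        rw [hr] at hirr
        simpa using hirr
      · rintro _ ⟨v, hv, rfl⟩
        refine ⟨?_, v, rfl⟩
        rw [Set.mem_preimage, ← Scheme.Hom.comp_apply, hγg]
        exact hv
    have hκw : κ w = κ (σ (pullback.fst y z w)) := by
      rw [← hγs, Scheme.Hom.comp_apply, Scheme.Hom.comp_apply, key]
    rw [hκw, ← Scheme.Hom.comp_apply, h2, Scheme.Hom.comp_apply, Scheme.Hom.comp_apply,
      Scheme.Hom.comp_apply]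
  · rw [hκ, Category.assoc, Category.assoc, hj0, Category.comp_id]

end Fermat.Agent.S26.Q
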