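/-
S26 / block Q (architect helper138), node ZERO: the zero point of the Jacobian classifies the trivial bundle.
-/
import Fermat.Agent.S26.Q.Pb

set_option autoImplicit false

universe u

open CategoryTheory CategoryTheory.Limits AlgebraicGeometry AlgebraicGeometry.RelPicard
  NeronModelInfra GoodReductionJacobian

namespace Fermat.Agent.S26.Q

variable {K : Type u} [Field K] {C : Scheme.{u}} {c : C ⟶ SpK K} {o : SchemeHomOver (𝟙 (SpK K)) c}

/-- the zero point of `J` with values in `T` -/
noncomputable def zeroPt (D : RelativePic0Designation K c) {T : Scheme.{u}} (t : T ⟶ SpK K) :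
    SchemeHomOver t D.toBase :=
  ⟨t ≫ D.zeroSection, by rw [Category.assoc, D.zeroSection_toBase, Category.comp_id]⟩

/-- pull-back in two steps -/
theorem pullbackAlong_postComp {X X' T' : Scheme.{u}} {x : X ⟶ SpK K} {x' : X' ⟶ SpK K}
    {t' : T' ⟶ SpK K} (M : RigidifiedLineBundle c o x') (φ : SchemeHomOver x x')
    (ψ : SchemeHomOver t' x) :
    Nonempty (pb (baseChangeSnd c ψ) (M.pullbackAlong φ).L ≅ (M.pullbackAlong (postComp φ ψ)).L) :=
  pb_triangle (baseChangeSnd_comp c φ ψ) M.L

variable {P : SubPicCondition c o} {D : RelativePic0Designation K c}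
  (h : RepresentsRelSubPic c o P D)

include h in
theorem poincare_zeroPt {T : Scheme.{u}} (t : T ⟶ SpK K) :
    Nonempty ((h.poincare.pullbackAlong (zeroPt D t)).L ≅ OO (pullback c t)) := by
  have e : zeroPt D t = postComp (⟨D.zeroSection, D.zeroSection_toBase⟩ :
      SchemeHomOver (𝟙 (SpK K)) D.toBase) (⟨t, Category.comp_id t⟩ : SchemeHomOver t (𝟙 (SpK K))) :=
    rfl
  rw [e]
  refine iso_trans (iso_symm (pullbackAlong_postComp h.poincare _ _)) ?_
  exact iso_trans (pb_map _ h.zero) (pb_unit _)

include h in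
theorem eq_zeroPt_of_trivial {T : Scheme.{u}} (t : T ⟶ SpK K) (g : SchemeHomOver t D.toBase)
    (hg : Nonempty ((h.poincare.pullbackAlong g).L ≅ OO (pullback c t))) : g = zeroPt D t :=
  h.ext_of_iso t g (zeroPt D t) (iso_trans hg (iso_symm (poincare_zeroPt h t)))

end Fermat.Agent.S26.Q
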