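/-
S26 / block Q (architect helper138), node AXES: a rigidified line bundle on `C × (A × A)` which is trivial on
`C × (e × A)` and on `C × (A × e)` is trivial  (classifying map to the Jacobian + rigidity).
-/
import Fermat.Agent.S26.Q.Zero
import Fermat.Agent.S26.Q.AlgEq
import Fermat.Agent.S26.Q.GeomInt
import Fermat.Agent.S26.Q.Rigidity

set_option autoImplicit false

universe u

open CategoryTheory CategoryTheory.Limits AlgebraicGeometry AlgebraicGeometry.RelPicard
  NeronModelInfra GoodReductionJacobian

namespace Fermat.Agent.S26.Q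

variable {K : Type u} [Field K]

theorem trivial_of_trivial_on_axes [IsAlgClosed K] {C : Scheme.{u}} {c : C ⟶ SpK K}
    {o : SchemeHomOver (𝟙 (SpK K)) c} {D : RelativePic0Designation K c}
    (h : RepresentsRelSubPic c o (algEquivZeroCut c o) D) [IsSeparated D.toBase]
    [LocallyOfFiniteType D.toBase] {A : Scheme.{u}} (f : A ⟶ SpK K) [IsProper f] [IsIntegral A]
    [GeometricallyIntegral f] (e : SchemeHomOver (𝟙 (SpK K)) f)
    (M : RigidifiedLineBundle c o (aa f))
    (h1 : Nonempty (pb (baseChangeSnd c (ax1 f e)) M.L ≅ OO (pullback c f)))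
    (h2 : Nonempty (pb (baseChangeSnd c (ax2 f e)) M.L ≅ OO (pullback c f))) :
    Nonempty (M.L ≅ OO (pullback c (aa f))) := by
  haveI := geometricallyIntegral_aa f
  haveI := isIntegral_pullback_self f
  -- the origin
  have hτ : Nonempty (pb (baseChangeSnd c (postComp (ax1 f e) e)) M.L ≅ OO _) :=
    pb_trivial_of_factor (baseChangeSnd_comp c (ax1 f e) e) h1
  have hM : FibrewiseAlgEquivZero M := fibrewiseAlgEquivZero_of_trivial_fibre M _ hτ
  have hκ := h.classify_spec (aa f) M hM
  set κ := h.classify (aa f) M hM with hκdef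
  have k1 : postComp κ (ax1 f e) = zeroPt D f :=
    eq_zeroPt_of_trivial h f _ (iso_trans (iso_symm (pullbackAlong_postComp h.poincare κ (ax1 f e)))
      (iso_trans (pb_map _ hκ) h1))
  have k2 : postComp κ (ax2 f e) = zeroPt D f :=
    eq_zeroPt_of_trivial h f _ (iso_trans (iso_symm (pullbackAlong_postComp h.poincare κ (ax2 f e)))
      (iso_trans (pb_map _ hκ) h2))
  have hrig : κ.1 = aa f ≫ D.zeroSection :=
    rigidity f f D.toBase κ.1 κ.2 e.1 e.2 e.1 e.2 D.zeroSection D.zeroSection_toBase
      (congrArg Subtype.val k1) (congrArg Subtype.val k2)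
  have hz : κ = zeroPt D (aa f) := Subtype.ext hrig
  rw [hz] at hκ
  exact iso_trans (iso_symm hκ) (poincare_zeroPt h (aa f))

end Fermat.Agent.S26.Q
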