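/-
S26 / block Q (architect helper138), node Q0: formal properties of `Theta` and `Xi`.
-/
import Fermat.Agent.S26.Q.Defs

set_option autoImplicit false

universe u

open CategoryTheory CategoryTheory.Limits AlgebraicGeometry AlgebraicGeometry.RelPicard
  NeronModelInfra GoodReductionJacobian

namespace Fermat.Agent.S26.Q

variable {K : Type u} [Field K] (PB : PicBase K) {A : Scheme.{u}} {f : A ⟶ SpK K}
  (L : RelativeGroupLaw K f)

/-- `0^* ξ = 0`. -/
theorem pull_one (ξ : PB.Pic A) {T : Scheme.{u}} (t : T ⟶ SpK K) :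
    PB.pull (L.one t).1 ξ = 0 := by
  have h := L.one_natural (𝟙 (SpK K)) t t (Category.comp_id t)
  have h1 : (L.one t).1 = t ≫ (L.one (𝟙 (SpK K))).1 := by
    rw [← h]; rfl
  rw [h1, PB.pull_comp, PB.pic_point (PB.pull (L.one (𝟙 (SpK K))).1 ξ), map_zero]

theorem pull_comp_pt (ξ : PB.Pic A) {T T' : Scheme.{u}} (t : T ⟶ SpK K) (t' : T' ⟶ SpK K)
    (m : T' ⟶ T) (hm : m ≫ t = t') (x : SchemeHomOver t f) :
    PB.pull m (PB.pull x.1 ξ) = PB.pull (schemeHomOverComp m hm x).1 ξ := by
  rw [← PB.pull_comp]; rfl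

theorem Theta_natural (ξ : PB.Pic A) {T T' : Scheme.{u}} (t : T ⟶ SpK K) (t' : T' ⟶ SpK K)
    (m : T' ⟶ T) (hm : m ≫ t = t') (x y z : SchemeHomOver t f) :
    PB.pull m (Theta PB L ξ t x y z) =
      Theta PB L ξ t' (schemeHomOverComp m hm x) (schemeHomOverComp m hm y)
        (schemeHomOverComp m hm z) := by
  unfold Theta
  simp only [map_add, map_sub, pull_comp_pt PB ξ t t' m hm, L.mul_natural t t' m hm]

theorem Theta_one_left (ξ : PB.Pic A) {T : Scheme.{u}} (t : T ⟶ SpK K) (y z : SchemeHomOver t f) :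
    Theta PB L ξ t (L.one t) y z = 0 := by
  unfold Theta
  rw [L.one_mul, L.one_mul, pull_one]
  abel

theorem Theta_one_mid (ξ : PB.Pic A) {T : Scheme.{u}} (t : T ⟶ SpK K) (x z : SchemeHomOver t f) :
    Theta PB L ξ t x (L.one t) z = 0 := by
  unfold Theta
  rw [L.mul_one, L.one_mul, pull_one]
  abel

theorem Theta_one_right (ξ : PB.Pic A) {T : Scheme.{u}} (t : T ⟶ SpK K)
    (x y : SchemeHomOver t f) : Theta PB L ξ t x y (L.one t) = 0 := by
  unfold Theta
  rw [L.mul_one, L.mul_one, L.mul_one, pull_one]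
  abel

section Xi

variable {C : Scheme.{u}} (c : C ⟶ SpK K) (γ : SchemeHomOver c f) (ξ : PB.Pic A)

/-- `Xi` is compatible with base change in `T`. -/
theorem pull_Xi {T T' : Scheme.{u}} {t : T ⟶ SpK K} {t' : T' ⟶ SpK K} (s : SchemeHomOver t' t)
    (y z : SchemeHomOver t f) :
    PB.pull (baseChangeSnd c s) (Xi c t PB L γ ξ y z) =
      Xi c t' PB L γ ξ (schemeHomOverComp s.1 s.2 y) (schemeHomOverComp s.1 s.2 z) := by
  have hm : baseChangeSnd c s ≫ cT c t = cT c t' := by
    simp only [baseChangeSnd, cT, pullback.lift_snd_assoc, Category.assoc, s.2]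
  unfold Xi
  rw [Theta_natural PB L ξ (cT c t) (cT c t') (baseChangeSnd c s) hm]
  congr 1
  · apply Subtype.ext
    simp only [compPt, ptC, baseChangeSnd, schemeHomOverComp_coe, pullback.lift_fst_assoc,
      Category.comp_id]
  · apply Subtype.ext
    simp only [ptT, baseChangeSnd, schemeHomOverComp_coe, pullback.lift_snd_assoc, Category.assoc]
  · apply Subtype.ext
    simp only [ptT, baseChangeSnd, schemeHomOverComp_coe, pullback.lift_snd_assoc, Category.assoc]

/-- restriction of `Xi` to the graph of a point of `C`. -/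
theorem pull_graph_Xi {T : Scheme.{u}} (t : T ⟶ SpK K) (p : SchemeHomOver t c)
    (y z : SchemeHomOver t f) :
    PB.pull (graph c t p) (Xi c t PB L γ ξ y z) = Theta PB L ξ t (compPt K f p γ) y z := by
  have hm : graph c t p ≫ cT c t = t := by
    simp only [graph, cT, pullback.lift_snd_assoc, Category.id_comp]
  unfold Xi
  rw [Theta_natural PB L ξ (cT c t) t (graph c t p) hm]
  congr 1
  · apply Subtype.ext
    simp only [compPt, ptC, graph, schemeHomOverComp_coe, pullback.lift_fst_assoc]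
  · apply Subtype.ext
    simp only [ptT, graph, schemeHomOverComp_coe, pullback.lift_snd_assoc, Category.id_comp]
  · apply Subtype.ext
    simp only [ptT, graph, schemeHomOverComp_coe, pullback.lift_snd_assoc, Category.id_comp]

/-- `Xi` is trivial along the rigidifying section. -/
theorem pull_rigSection_Xi (o : SchemeHomOver (𝟙 (SpK K)) c)
    (ho : o.1 ≫ γ.1 = (L.one (𝟙 (SpK K))).1) {T : Scheme.{u}} (t : T ⟶ SpK K)
    (y z : SchemeHomOver t f) :
    PB.pull (rigSection c t o) (Xi c t PB L γ ξ y z) = 0 := by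
  have h : rigSection c t o = graph c t ⟨t ≫ o.1, by rw [Category.assoc, o.2, Category.comp_id]⟩ :=
    rfl
  rw [h, pull_graph_Xi]
  have h1 : compPt K f (⟨t ≫ o.1, by rw [Category.assoc, o.2, Category.comp_id]⟩ :
      SchemeHomOver t c) γ = L.one t := by
    rw [← L.one_natural (𝟙 (SpK K)) t t (Category.comp_id t)]
    apply Subtype.ext
    simp only [compPt, schemeHomOverComp_coe, Category.assoc, ho]
  rw [h1, Theta_one_left]

theorem ptT_one {T : Scheme.{u}} (t : T ⟶ SpK K) : ptT c t (L.one t) = L.one (cT c t) :=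
  L.one_natural t (cT c t) (pullback.snd c t) rfl

theorem Xi_one_left {T : Scheme.{u}} (t : T ⟶ SpK K) (z : SchemeHomOver t f) :
    Xi c t PB L γ ξ (L.one t) z = 0 := by
  unfold Xi
  rw [ptT_one, Theta_one_mid]

theorem Xi_one_right {T : Scheme.{u}} (t : T ⟶ SpK K) (y : SchemeHomOver t f) :
    Xi c t PB L γ ξ y (L.one t) = 0 := by
  unfold Xi
  rw [ptT_one, Theta_one_right]

end Xi

end Fermat.Agent.S26.Q
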