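/-
S26 / block Q (architect helper138), node UNIV: the universal class `Xi` on `C × (A × A)` vanishes.
-/
import Fermat.Agent.S26.Q.Theta
import Fermat.Agent.S26.Q.Axes

set_option autoImplicit false

universe u

open CategoryTheory CategoryTheory.Limits AlgebraicGeometry AlgebraicGeometry.RelPicard
  NeronModelInfra GoodReductionJacobian

namespace Fermat.Agent.S26.Q

variable {K : Type u} [Field K]

theorem comp_pair_pr1 {A : Scheme.{u}} (f : A ⟶ SpK K) {T : Scheme.{u}} {t : T ⟶ SpK K}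
    (y z : SchemeHomOver t f) :
    schemeHomOverComp (pair f y z).1 (pair f y z).2 (pr1 f) = y :=
  Subtype.ext (pullback.lift_fst _ _ _)

theorem comp_pair_pr2 {A : Scheme.{u}} (f : A ⟶ SpK K) {T : Scheme.{u}} {t : T ⟶ SpK K}
    (y z : SchemeHomOver t f) :
    schemeHomOverComp (pair f y z).1 (pair f y z).2 (pr2 f) = z :=
  Subtype.ext (pullback.lift_snd _ _ _)

theorem cst_one {A : Scheme.{u}} {f : A ⟶ SpK K} (L : RelativeGroupLaw K f) {T : Scheme.{u}}
    (t : T ⟶ SpK K) : cst f t (L.one (𝟙 (SpK K))) = L.one t :=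
  L.one_natural (𝟙 (SpK K)) t t (Category.comp_id t)

theorem Xi_univ_eq_zero [IsAlgClosed K] (PB : PicBase K) {A : Scheme.{u}} (f : A ⟶ SpK K)
    (L : RelativeGroupLaw K f) [IsProper f] [IsIntegral A] [GeometricallyIntegral f]
    {C : Scheme.{u}} (c : C ⟶ SpK K) [IsProper c] (o : SchemeHomOver (𝟙 (SpK K)) c)
    (γ : SchemeHomOver c f) (ho : o.1 ≫ γ.1 = (L.one (𝟙 (SpK K))).1) (ξ : PB.Pic A)
    {D : RelativePic0Designation K c} (h : RepresentsRelSubPic c o (algEquivZeroCut c o) D)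
    [IsSeparated D.toBase] [LocallyOfFiniteType D.toBase] :
    Xi c (aa f) PB L γ ξ (pr1 f) (pr2 f) = 0 := by
  have hcpt : CompactSpace ↥(pullback c (aa f) : Scheme.{u}) := by
    have : QuasiCompact (cT c (aa f)) := inferInstance
    exact QuasiCompact.compactSpace_of_compactSpace (cT c (aa f))
  obtain ⟨𝓛, hinv, hre⟩ := PB.exists_realizes (Xi c (aa f) PB L γ ξ (pr1 f) (pr2 f))
  have hrig : Nonempty (pb (rigSection c (aa f) o) 𝓛 ≅ OO (pullback f f)) := by
    have := PB.realizes_pull (rigSection c (aa f) o) 𝓛 _ hre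
    rw [pull_rigSection_Xi PB L c γ ξ o ho] at this
    exact (PB.realizes_unit_iff _ _ this).mpr rfl
  have h1 : Nonempty (pb (baseChangeSnd c (ax1 f (L.one (𝟙 (SpK K))))) 𝓛 ≅ OO (pullback c f)) := by
    have := PB.realizes_pull (baseChangeSnd c (ax1 f (L.one (𝟙 (SpK K))))) 𝓛 _ hre
    have e : PB.pull (baseChangeSnd c (ax1 f (L.one (𝟙 (SpK K)))))
        (Xi c (aa f) PB L γ ξ (pr1 f) (pr2 f)) = 0 := by
      rw [pull_Xi, ax1, comp_pair_pr1, cst_one, Xi_one_left]
    rw [e] at this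
    exact (PB.realizes_unit_iff _ _ this).mpr rfl
  have h2 : Nonempty (pb (baseChangeSnd c (ax2 f (L.one (𝟙 (SpK K))))) 𝓛 ≅ OO (pullback c f)) := by
    have := PB.realizes_pull (baseChangeSnd c (ax2 f (L.one (𝟙 (SpK K))))) 𝓛 _ hre
    have e : PB.pull (baseChangeSnd c (ax2 f (L.one (𝟙 (SpK K)))))
        (Xi c (aa f) PB L γ ξ (pr1 f) (pr2 f)) = 0 := by
      rw [pull_Xi, ax2, comp_pair_pr2, cst_one, Xi_one_right]
    rw [e] at this
    exact (PB.realizes_unit_iff _ _ this).mpr rfl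
  exact (PB.realizes_unit_iff 𝓛 _ hre).mp
    (trivial_of_trivial_on_axes h f (L.one (𝟙 (SpK K))) ⟨𝓛, hinv, hrig⟩ h1 h2)

/-- the cube, from the existence of the Jacobian of `C` -/
theorem Theta_eq_zero [IsAlgClosed K] (PB : PicBase K) {A : Scheme.{u}} (f : A ⟶ SpK K)
    (L : RelativeGroupLaw K f) [IsProper f] [IsIntegral A] [GeometricallyIntegral f]
    {C : Scheme.{u}} (c : C ⟶ SpK K) [IsProper c] (o : SchemeHomOver (𝟙 (SpK K)) c)
    (γ : SchemeHomOver c f) (ho : o.1 ≫ γ.1 = (L.one (𝟙 (SpK K))).1) (ξ : PB.Pic A)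
    {D : RelativePic0Designation K c} (h : RepresentsRelSubPic c o (algEquivZeroCut c o) D)
    [IsSeparated D.toBase] [LocallyOfFiniteType D.toBase] {T : Scheme.{u}} (t : T ⟶ SpK K)
    (p : SchemeHomOver t c) (y z : SchemeHomOver t f) :
    Theta PB L ξ t (compPt K f p γ) y z = 0 := by
  have hU := Xi_univ_eq_zero PB f L c o γ ho ξ h
  have h1 := pull_Xi PB L c γ ξ (pair f y z) (pr1 f) (pr2 f)
  rw [hU, map_zero, comp_pair_pr1, comp_pair_pr2] at h1
  have h2 := pull_graph_Xi PB L c γ ξ t p y z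
  rw [← h1, map_zero] at h2
  exact h2.symm

end Fermat.Agent.S26.Q
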