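/-
S26 / block Q : CONTRACT (the theorem of the cube along curves, for an abstract `PicBase`).
Architect helper138.  Proved from `Q/Univ.lean` (`Theta_eq_zero`), the Jacobian `Fermat.Agent.S25.result`
and block P (`P.isIntegral`, `P.geometricallyIntegral`).
-/
import Fermat.Agent.S26.B.Defs
import Fermat.Agent.S26.P.Main
import Fermat.Agent.S26.Q.Univ
import Fermat.Agent.S25

set_option autoImplicit false

universe u

open CategoryTheory CategoryTheory.Limits AlgebraicGeometry NeronModelInfra GoodReductionJacobian

namespace Fermat.Agent.S26.Q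

/-- **Contract Q.** -/
theorem cube {K : Type u} [Field K] [IsAlgClosed K] (PB : PicBase K) {A : Scheme.{u}}
    (f : A ⟶ SpK K) (L : RelativeGroupLaw K f) (hc : L.IsCommutative)
    (hA : AbelianSchemePropertyBundle K f) : PB.Cube f L := by
  intro C c _ _ _ o γ ho ξ T t p y z
  have := P.isIntegral L hA
  have := P.geometricallyIntegral L hA
  have := hA.proper
  obtain ⟨D, ⟨h⟩, -, hprop, -⟩ := Fermat.Agent.S25.result K c o
  exact Theta_eq_zero PB f L c o γ ho ξ h t p y z

end Fermat.Agent.S26.Q
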