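/-
S26 / blocks M + Q : Picard theory with the theorem of the cube along curves.
-/
import Fermat.Agent.S26.M.Main
import Fermat.Agent.S26.Q.Cube

set_option autoImplicit false

universe u

open CategoryTheory CategoryTheory.Limits AlgebraicGeometry NeronModelInfra GoodReductionJacobian

namespace Fermat.Agent.S26.Q

/-- **Contract PT.** -/
theorem nonempty_picTheory {K : Type u} [Field K] [IsAlgClosed K] {A : Scheme.{u}} (f : A ⟶ SpK K)
    (L : RelativeGroupLaw K f) (hc : L.IsCommutative) (hA : AbelianSchemePropertyBundle K f) :
    Nonempty (PicTheory K f L) := by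
  obtain ⟨PB⟩ := M.nonempty_picBase K
  exact ⟨{ toPicBase := PB, cube := cube PB f L hc hA }⟩

end Fermat.Agent.S26.Q
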